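import Mathlib.Data.Nat.Squarefree
import Mathlib.NumberTheory.Divisors
import Mathlib.RingTheory.Coprime.Lemmas
import Mathlib.Tactic

/-!
# Points of bounded height on `X² - N Y² = m`

There are `O (d (m)² log Z)` of them with `|X|, |Y| ≤ Z`, uniformly in `N`: for squarefree `N` the
congruence `r² ≡ N` has `O (d)` roots, one root carries one orbit of units, and the units grow
geometrically.
-/

set_option autoImplicit false

open Finset

namespace FA.SumsTwoCubesCount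

/-- A set of positive integers which grows geometrically is logarithmically small. -/
theorem card_le_log_of_doubling {S : Finset ℕ} {Z : ℕ} (h1 : ∀ u ∈ S, 1 ≤ u ∧ u ≤ Z)
    (h2 : ∀ u ∈ S, ∀ v ∈ S, u < v → 2 * u ≤ v) : S.card ≤ Nat.log 2 Z + 1 := by
  refine (card_le_card_of_injOn (Nat.log 2) (t := range (Nat.log 2 Z + 1)) (fun u hu => ?_)
    ?_).trans_eq (card_range _)
  · simpa using Nat.lt_succ_of_le (Nat.log_mono_right (h1 u hu).2)
  · have key : ∀ u ∈ S, ∀ v ∈ S, u < v → Nat.log 2 u < Nat.log 2 v := fun u hu v hv huv => by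
      refine Nat.le_log_of_pow_le one_lt_two ?_
      rw [Nat.succ_eq_add_one, pow_succ]
      exact le_trans (le_of_eq_of_le (mul_comm _ _)
        (Nat.mul_le_mul_left 2 (Nat.pow_log_le_self 2 (by have := (h1 u hu).1; omega))))
        (h2 u hu v hv huv)
    intro u hu v hv e
    rcases lt_trichotomy u v with h | h | h
    · exact absurd e (key u hu v hv h).ne
    · exact h
    · exact absurd e (key v hv u hu h).ne'

/-- The units grow geometrically. -/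
theorem unit_doubling {N U V U' V' : ℤ} (hN : 1 ≤ N) (hU : 1 ≤ U) (hV : 0 ≤ V) (hU' : U < U')
    (hV' : 0 ≤ V') (h : U ^ 2 = N * V ^ 2 + 1) (h' : U' ^ 2 = N * V' ^ 2 + 1) :
    2 * U ≤ U' := by
  have hlt : V < V' := by
    by_contra hle
    nlinarith [pow_le_pow_left₀ hV' (not_lt.1 hle) 2]
  set p := U' * U - N * V' * V with hp
  set q := V' * U - U' * V with hq
  have hpq : p ^ 2 = N * q ^ 2 + 1 := by
    rw [hp, hq]
    linear_combination (U ^ 2 - N * V ^ 2) * h' + h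
  have hq0 : 0 < q := by
    by_contra hle
    have h1 : (V' * U) ^ 2 ≤ (U' * V) ^ 2 :=
      pow_le_pow_left₀ (by positivity) (by linarith) 2
    have h2 : V ^ 2 < V' ^ 2 := pow_lt_pow_left₀ hlt hV two_ne_zero
    nlinarith
  have hp0 : 0 ≤ p := by
    by_contra hlt'
    have h1 : (U' * U) ^ 2 ≤ (N * V' * V) ^ 2 :=
      pow_le_pow_left₀ (by nlinarith) (by linarith) 2
    nlinarith [mul_pos hq0 hq0, sq_nonneg V, sq_nonneg V']
  have hp2 : 2 ≤ p := by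
    by_contra h2
    have : p ^ 2 ≤ 1 := by nlinarith
    nlinarith [mul_pos hq0 hq0]
  have e : U' = U * p + N * V * q := by
    rw [hp, hq]
    linear_combination (-U') * h
  nlinarith [mul_nonneg (mul_nonneg (by omega : (0 : ℤ) ≤ N) hV) hq0.le]

/-- The units of bounded height. -/
theorem units_card {N : ℤ} (hN : 1 ≤ N) {Z : ℕ} (S : Finset (ℤ × ℤ))
    (hS : ∀ p ∈ S, p.1 ^ 2 - N * p.2 ^ 2 = 1 ∧ p.1.natAbs ≤ Z) :
    S.card ≤ 4 * (Nat.log 2 Z + 1) := by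
  classical
  have hne : ∀ p ∈ S, 1 ≤ p.1.natAbs := fun p hp => by
    by_contra h
    have h0 : p.1 = 0 := by omega
    have := (hS p hp).1
    rw [h0] at this
    nlinarith [sq_nonneg p.2]
  have hlog : (S.image fun p => p.1.natAbs).card ≤ Nat.log 2 Z + 1 := by
    refine card_le_log_of_doubling (fun u hu => ?_) fun u hu v hv huv => ?_
    · obtain ⟨p, hp, rfl⟩ := mem_image.1 hu
      exact ⟨hne p hp, (hS p hp).2⟩
    · obtain ⟨p, hp, rfl⟩ := mem_image.1 hu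
      obtain ⟨q, hq, rfl⟩ := mem_image.1 hv
      have := unit_doubling hN (U := (p.1.natAbs : ℤ)) (V := (p.2.natAbs : ℤ))
        (U' := (q.1.natAbs : ℤ)) (V' := (q.2.natAbs : ℤ))
        (by have := hne p hp; omega) (Int.natCast_nonneg _) (by omega) (Int.natCast_nonneg _)
        (by rw [Int.natAbs_sq, Int.natAbs_sq]; linarith [(hS p hp).1])
        (by rw [Int.natAbs_sq, Int.natAbs_sq]; linarith [(hS q hq).1])
      omega
  refine le_trans (card_le_mul_card_image (f := fun p : ℤ × ℤ => p.1.natAbs) S 4 fun k _ => ?_)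
    (Nat.mul_le_mul_left 4 hlog)
  refine (card_le_card_of_injOn (fun p : ℤ × ℤ => (decide (0 ≤ p.1), decide (0 ≤ p.2)))
    (t := (univ : Finset (Bool × Bool))) (fun _ _ => mem_univ _) ?_).trans (by simp)
  intro p hp q hq e
  simp only [coe_filter, Set.mem_ofPred_eq] at hp hq
  simp only [Prod.mk.injEq, decide_eq_decide] at e
  have h1 : p.1.natAbs = q.1.natAbs := hp.2.trans hq.2.symm
  have h2 : p.2.natAbs = q.2.natAbs := by
    have h3 : p.1 ^ 2 = q.1 ^ 2 := by rw [← Int.natAbs_sq, h1, Int.natAbs_sq]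
    have h4 : p.2 ^ 2 = q.2 ^ 2 := by
      refine mul_left_cancel₀ (by omega : N ≠ 0) ?_
      linarith [(hS p hp.1).1, (hS q hq.1).1]
    rcases sq_eq_sq_iff_eq_or_eq_neg.1 h4 with h | h <;> omega
  exact Prod.ext (by omega) (by omega)

/-- A square dividing four times a squarefree number has root `1` or `2`. -/
theorem dvd_two_of_sq_dvd {x N : ℕ} (hN : Squarefree N) (h : x ^ 2 ∣ 4 * N) : x ∣ 2 := by
  obtain ⟨g, x', t, hg, hco, hx, ht⟩ := Nat.exists_coprime' (m := x) (n := 2)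
    (Nat.gcd_pos_of_pos_right x two_pos)
  have h1 : x' ^ 2 ∣ t ^ 2 * N := by
    refine Nat.dvd_of_mul_dvd_mul_left (pow_pos hg 2) ?_
    rw [← mul_assoc, ← mul_pow, ← mul_pow, mul_comm g x', mul_comm g t, ← hx, ← ht]
    simpa using h
  have h2 : x' * x' ∣ N := by
    rw [← sq]
    exact (hco.pow 2 2).dvd_of_dvd_mul_left h1
  rw [hx, Nat.isUnit_iff.1 (hN x' h2), one_mul]
  exact Dvd.intro_left t ht.symm

/-- The roots of `r² ≡ N (mod M)` for squarefree `N`. -/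
theorem roots_card {N M : ℕ} (hM : 0 < M) (hN : Squarefree N) (S : Finset ℤ)
    (hS : ∀ r ∈ S, 0 ≤ r ∧ r < M ∧ (M : ℤ) ∣ r ^ 2 - N) :
    S.card ≤ 3 * M.divisors.card := by
  classical
  rcases S.eq_empty_or_nonempty with rfl | ⟨r₀, hr₀⟩
  · simp
  have hside : ∀ r ∈ S, ∀ d : ℕ, d = Int.gcd (r - r₀) M →
      d ∣ M ∧ (d : ℤ) ∣ r - r₀ ∧ ((M / d : ℕ) : ℤ) ∣ r + r₀ := by
    intro r hr d hd
    have hdM : d ∣ M := by
      rw [hd]; exact Int.natCast_dvd_natCast.1 (Int.gcd_dvd_right _ _)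
    have hdr : (d : ℤ) ∣ r - r₀ := hd ▸ Int.gcd_dvd_left _ _
    have hd0 : (d : ℤ) ≠ 0 := by
      rw [Ne, Int.natCast_eq_zero, hd, Int.gcd_eq_zero_iff]
      omega
    obtain ⟨s, hs⟩ := hdr
    obtain ⟨m, hm⟩ := hdM
    have hm' : M / d = m := by rw [hm, Nat.mul_div_cancel_left _ (by omega)]
    have hcop : IsCoprime (m : ℤ) s := by
      refine IsCoprime.symm ⟨Int.gcdA (r - r₀) M, Int.gcdB (r - r₀) M, mul_left_cancel₀ hd0 ?_⟩
      have hb := Int.gcd_eq_gcd_ab (r - r₀) M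
      rw [← hd] at hb
      conv_rhs at hb => arg 1; arg 1; rw [hs]
      conv_rhs at hb => arg 2; arg 1; rw [hm]
      push_cast at hb
      linear_combination -hb
    refine ⟨⟨m, hm⟩, ⟨s, hs⟩, hm' ▸ hcop.dvd_of_dvd_mul_left ?_⟩
    obtain ⟨k, hk⟩ := (hS r hr).2.2.sub (hS r₀ hr₀).2.2
    refine ⟨k, mul_left_cancel₀ hd0 ?_⟩
    have hmZ : (M : ℤ) = d * m := by exact_mod_cast hm
    linear_combination hk + k * hmZ - (r + r₀) * hs
  refine (card_le_mul_card_image (f := fun r => Int.gcd (r - r₀) M) S 3 fun d hd => ?_).trans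
    (Nat.mul_le_mul_left 3 (card_le_card fun d hd => ?_))
  · obtain ⟨r₁, hr₁, hd₁⟩ := mem_image.1 hd
    set m := M / d with hm
    obtain ⟨hdM, hd1, hm1⟩ := hside r₁ hr₁ d hd₁.symm
    have he : Nat.gcd d m ∣ 2 := by
      refine dvd_two_of_sq_dvd hN ?_
      have e1 : ((Nat.gcd d m : ℕ) : ℤ) ∣ 2 * r₀ := by
        have := ((Int.natCast_dvd_natCast.2 (Nat.gcd_dvd_right d m)).trans hm1).sub
          ((Int.natCast_dvd_natCast.2 (Nat.gcd_dvd_left d m)).trans hd1)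
        rwa [show r₁ + r₀ - (r₁ - r₀) = 2 * r₀ by ring] at this
      have e2 : (((Nat.gcd d m) ^ 2 : ℕ) : ℤ) ∣ r₀ ^ 2 - N := by
        refine (Int.natCast_dvd_natCast.2 ?_).trans (hS r₀ hr₀).2.2
        rw [sq]
        exact (Nat.mul_dvd_mul (Nat.gcd_dvd_left d m) (Nat.gcd_dvd_right d m)).trans
          (Nat.mul_div_cancel' hdM).dvd
      push_cast at e2
      have := (pow_dvd_pow_of_dvd e1 2).sub (e2.mul_left 4)
      rw [show (2 * r₀) ^ 2 - 4 * (r₀ ^ 2 - (N : ℤ)) = ((4 * N : ℕ) : ℤ) by push_cast; ring,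
        ← Nat.cast_pow, Int.natCast_dvd_natCast] at this
      exact this
    have hdvd : ∀ r ∈ S.filter (fun r => Int.gcd (r - r₀) M = d), (M : ℤ) ∣ 2 * (r - r₁) := by
      intro r hr
      obtain ⟨hrS, hrd⟩ := mem_filter.1 hr
      obtain ⟨-, h1, h2⟩ := hside r hrS d hrd.symm
      have e1 : (d : ℤ) ∣ r - r₁ := by simpa using h1.sub hd1
      have e2 : ((m : ℕ) : ℤ) ∣ r - r₁ := by
        have := h2.sub hm1
        rwa [show r + r₀ - (r₁ + r₀) = r - r₁ by ring] at this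
      have e3 : ((Nat.lcm d m : ℕ) : ℤ) ∣ r - r₁ :=
        Int.natCast_dvd.2 (Nat.lcm_dvd (Int.natCast_dvd.1 e1) (Int.natCast_dvd.1 e2))
      obtain ⟨c, hc⟩ := he
      refine Dvd.dvd.trans ⟨(c : ℤ), ?_⟩ (mul_dvd_mul_left (2 : ℤ) e3)
      have : M * c = 2 * Nat.lcm d m := by
        rw [hc, ← Nat.mul_div_cancel' hdM, ← hm, ← Nat.gcd_mul_lcm d m]
        ring
      exact_mod_cast this.symm
    refine (card_le_card_of_injOn (fun r => 2 * (r - r₁) / (M : ℤ))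
      (t := Icc (-1 : ℤ) 1) (fun r hr => ?_) fun r hr r' hr' e => ?_).trans (by simp)
    · obtain ⟨k, hk⟩ := hdvd r hr
      obtain ⟨hrS, -⟩ := mem_filter.1 hr
      have := hS r hrS
      have := hS r₁ hr₁
      simp only [coe_Icc, Set.mem_Icc, hk, Int.mul_ediv_cancel_left _
        (Int.natCast_ne_zero.2 hM.ne')]
      constructor <;> nlinarith
    · obtain ⟨k, hk⟩ := hdvd r hr
      obtain ⟨k', hk'⟩ := hdvd r' hr'
      simp only [hk, hk', Int.mul_ediv_cancel_left _ (Int.natCast_ne_zero.2 hM.ne')] at e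
      subst e
      linarith
  · obtain ⟨r, hr, rfl⟩ := mem_image.1 hd
    exact Nat.mem_divisors.2 ⟨(hside r hr _ rfl).1, hM.ne'⟩

/-- The coprime points. -/
theorem primitive_card {N : ℕ} (hN : Squarefree N) {m : ℤ} (hm : m ≠ 0) {Z : ℕ}
    (S : Finset (ℤ × ℤ)) (hS : ∀ p ∈ S, p.1 ^ 2 - (N : ℤ) * p.2 ^ 2 = m ∧ IsCoprime p.1 p.2 ∧
      p.1.natAbs ≤ Z ∧ p.2.natAbs ≤ Z) :
    S.card ≤ 12 * m.natAbs.divisors.card * (Nat.log 2 ((1 + N) * Z ^ 2) + 1) := by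
  classical
  set M := m.natAbs with hM
  have hM0 : 0 < M := Int.natAbs_pos.2 hm
  have hN1 : 1 ≤ N := Nat.pos_of_ne_zero hN.ne_zero
  have hcop : ∀ p : ℤ × ℤ, ∃ r : ℤ, p ∈ S →
      0 ≤ r ∧ r < M ∧ (M : ℤ) ∣ p.1 - r * p.2 ∧ (M : ℤ) ∣ r ^ 2 - N := by
    intro p
    by_cases hp : p ∈ S
    swap
    · exact ⟨0, fun h => absurd h hp⟩
    obtain ⟨he, hc, -⟩ := hS p hp
    have hBm : IsCoprime p.2 (M : ℤ) := by
      have h := (hc.pow_left (m := 2)).symm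
      have h2 := h.add_mul_left_right (-((N : ℤ) * p.2))
      have e : p.1 ^ 2 + p.2 * -((N : ℤ) * p.2) = m := by linear_combination he
      rw [e] at h2
      rw [hM, Int.natCast_natAbs]
      rcases abs_choice m with h3 | h3 <;> rw [h3]
      exacts [h2, h2.neg_right]
    obtain ⟨u, v, huv⟩ := id hBm
    refine ⟨p.1 * u % M, fun _ => ⟨Int.emod_nonneg _ (by omega),
      Int.emod_lt_of_pos _ (by omega), ?_⟩⟩
    have h1 : (M : ℤ) ∣ p.1 - p.1 * u % M * p.2 := by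
      refine ⟨v * p.1 + p.1 * u / M * p.2, ?_⟩
      have := Int.emod_add_mul_ediv (p.1 * u) M
      linear_combination (-p.1) * huv - p.2 * this
    refine ⟨h1, ?_⟩
    refine ((hBm.symm.pow_right (n := 2)).dvd_of_dvd_mul_right ?_)
    have h3 : (M : ℤ) ∣ m := Int.natAbs_dvd.2 dvd_rfl
    have h4 := h3.sub (h1.mul_right (p.1 + p.1 * u % M * p.2))
    convert h4 using 1
    linear_combination he
  choose r hr using hcop
  have himg : (S.image r).card ≤ 3 * M.divisors.card := roots_card hM0 hN _ fun x hx => by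
    obtain ⟨p, hp, rfl⟩ := mem_image.1 hx
    exact ⟨(hr p hp).1, (hr p hp).2.1, (hr p hp).2.2.2⟩
  refine (card_le_mul_card_image (f := r) S (4 * (Nat.log 2 ((1 + N) * Z ^ 2) + 1))
    fun x hx => ?_).trans ((Nat.mul_le_mul_left _ himg).trans_eq (by ring))
  obtain ⟨p, hp, rfl⟩ := mem_image.1 hx
  obtain ⟨hep, -, hp1, hp2⟩ := hS p hp
  obtain ⟨-, -, hdp, hrp⟩ := hr p hp
  set F := S.filter fun q => r q = r p
  set φ : ℤ × ℤ → ℤ × ℤ := fun q =>
    ((p.1 * q.1 - (N : ℤ) * p.2 * q.2) / m, (p.1 * q.2 - p.2 * q.1) / m)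
  have hdvd : ∀ q ∈ F, m ∣ p.1 * q.1 - (N : ℤ) * p.2 * q.2 ∧ m ∣ p.1 * q.2 - p.2 * q.1 := by
    intro q hq
    obtain ⟨hqS, hqr⟩ := mem_filter.1 hq
    have hdq := (hr q hqS).2.2.1
    rw [hqr] at hdq
    have h3 : m ∣ (M : ℤ) := Int.dvd_natAbs.2 dvd_rfl
    refine ⟨h3.trans ?_, h3.trans ?_⟩
    · rw [show p.1 * q.1 - (N : ℤ) * p.2 * q.2 = (p.1 - r p * p.2) * q.1 +
        r p * p.2 * (q.1 - r p * q.2) + (r p ^ 2 - N) * (p.2 * q.2) by ring]
      exact ((hdp.mul_right _).add (hdq.mul_left _)).add (hrp.mul_right _)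
    · rw [show p.1 * q.2 - p.2 * q.1 = (p.1 - r p * p.2) * q.2 - p.2 * (q.1 - r p * q.2) by ring]
      exact (hdp.mul_right _).sub (hdq.mul_left _)
  have hinj : Set.InjOn φ F := fun q hq q' hq' e => by
    obtain ⟨⟨a, ha⟩, ⟨b, hb⟩⟩ := hdvd q hq
    obtain ⟨⟨a', ha'⟩, ⟨b', hb'⟩⟩ := hdvd q' hq'
    simp only [φ, ha, hb, ha', hb', Int.mul_ediv_cancel_left _ hm, Prod.mk.injEq] at e
    obtain ⟨rfl, rfl⟩ := e
    refine Prod.ext (mul_left_cancel₀ hm ?_) (mul_left_cancel₀ hm ?_)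
    · linear_combination (q'.1 - q.1) * hep + p.1 * (ha - ha') + (N : ℤ) * p.2 * (hb - hb')
    · linear_combination (q'.2 - q.2) * hep + p.2 * (ha - ha') + p.1 * (hb - hb')
  rw [← card_image_of_injOn hinj]
  refine units_card (N := (N : ℤ)) (by exact_mod_cast hN1) _ fun w hw => ?_
  obtain ⟨q, hq, rfl⟩ := mem_image.1 hw
  obtain ⟨⟨a, ha⟩, ⟨b, hb⟩⟩ := hdvd q hq
  obtain ⟨heq, -, hq1, hq2⟩ := hS q (mem_filter.1 hq).1
  simp only [φ, ha, hb, Int.mul_ediv_cancel_left _ hm]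
  refine ⟨mul_left_cancel₀ (pow_ne_zero 2 hm) ?_, ?_⟩
  · have e : (p.1 * q.1 - (N : ℤ) * p.2 * q.2) ^ 2 - N * (p.1 * q.2 - p.2 * q.1) ^ 2 =
        (p.1 ^ 2 - N * p.2 ^ 2) * (q.1 ^ 2 - N * q.2 ^ 2) := by ring
    rw [ha, hb, hep, heq] at e
    linear_combination e
  · refine le_trans (Nat.le_mul_of_pos_left _ hM0) ?_
    rw [hM, ← Int.natAbs_mul, ← ha]
    refine (Int.natAbs_sub_le _ _).trans ?_
    rw [Int.natAbs_mul, Int.natAbs_mul, Int.natAbs_mul, Int.natAbs_natCast, add_mul, one_mul, sq,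
      mul_assoc]
    exact add_le_add (Nat.mul_le_mul hp1 hq1) (Nat.mul_le_mul_left _ (Nat.mul_le_mul hp2 hq2))

/-- All points for squarefree `N`. -/
theorem squarefree_card {N : ℕ} (hN : Squarefree N) {m : ℤ} (hm : m ≠ 0) {Z : ℕ}
    (S : Finset (ℤ × ℤ))
    (hS : ∀ p ∈ S, p.1 ^ 2 - (N : ℤ) * p.2 ^ 2 = m ∧ p.1.natAbs ≤ Z ∧ p.2.natAbs ≤ Z) :
    S.card ≤ 12 * m.natAbs.divisors.card ^ 2 * (Nat.log 2 ((1 + N) * Z ^ 2) + 1) := by
  classical
  have hgdvd : ∀ p ∈ S, ((Int.gcd p.1 p.2 : ℤ)) ^ 2 ∣ m := fun p hp => by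
    rw [← (hS p hp).1]
    exact (pow_dvd_pow_of_dvd (Int.gcd_dvd_left _ _) 2).sub
      ((pow_dvd_pow_of_dvd (Int.gcd_dvd_right _ _) 2).mul_left _)
  have himg : (S.image fun p => Int.gcd p.1 p.2) ⊆ m.natAbs.divisors := fun g hg => by
    obtain ⟨p, hp, rfl⟩ := mem_image.1 hg
    exact Nat.mem_divisors.2 ⟨Int.natCast_dvd.1 ((dvd_pow_self _ two_ne_zero).trans (hgdvd p hp)),
      Int.natAbs_ne_zero.2 hm⟩
  refine (card_le_mul_card_image (f := fun p : ℤ × ℤ => Int.gcd p.1 p.2) S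
    (12 * m.natAbs.divisors.card * (Nat.log 2 ((1 + N) * Z ^ 2) + 1)) fun g hg => ?_).trans
    ((Nat.mul_le_mul_left _ (card_le_card himg)).trans_eq (by ring))
  obtain ⟨p, hp, rfl⟩ := mem_image.1 hg
  set g : ℕ := Int.gcd p.1 p.2
  obtain ⟨m', hm'⟩ := hgdvd p hp
  have hg0 : (g : ℤ) ≠ 0 := by
    intro h
    rw [h] at hm'
    simp at hm'
    exact hm hm'
  have hm'0 : m' ≠ 0 := by rintro rfl; simp at hm'; exact hm hm'
  set F := S.filter fun q => Int.gcd q.1 q.2 = g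
  have hq' : ∀ q ∈ F, ∃ a b : ℤ, IsCoprime a b ∧ q.1 = g * a ∧ q.2 = g * b := fun q hq => by
    obtain ⟨-, hqg⟩ := mem_filter.1 hq
    obtain ⟨a, ha⟩ : (g : ℤ) ∣ q.1 := hqg ▸ Int.gcd_dvd_left _ _
    obtain ⟨b, hb⟩ : (g : ℤ) ∣ q.2 := hqg ▸ Int.gcd_dvd_right _ _
    refine ⟨a, b, ⟨Int.gcdA q.1 q.2, Int.gcdB q.1 q.2, mul_left_cancel₀ hg0 ?_⟩, ha, hb⟩
    have h := Int.gcd_eq_gcd_ab q.1 q.2
    rw [hqg] at h
    linear_combination -h - Int.gcdA q.1 q.2 * ha - Int.gcdB q.1 q.2 * hb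
  choose! a b hab ha hb using hq'
  have hinj : Set.InjOn (fun q => (a q, b q)) F := fun q hq q' hq' e => by
    simp only [Prod.mk.injEq] at e
    exact Prod.ext (by rw [ha q hq, ha q' hq', e.1]) (by rw [hb q hq, hb q' hq', e.2])
  rw [← card_image_of_injOn hinj]
  refine (primitive_card hN hm'0 (Z := Z) _ fun w hw => ?_).trans
    (Nat.mul_le_mul_right _ (Nat.mul_le_mul_left _ (card_le_card ?_)))
  · obtain ⟨q, hq, rfl⟩ := mem_image.1 hw
    obtain ⟨he, h1, h2⟩ := hS q (mem_filter.1 hq).1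
    rw [ha q hq, hb q hq] at he
    rw [ha q hq, Int.natAbs_mul, Int.natAbs_natCast] at h1
    rw [hb q hq, Int.natAbs_mul, Int.natAbs_natCast] at h2
    have hgp : 0 < g := Nat.pos_of_ne_zero fun h => hg0 (by simp [h])
    refine ⟨mul_left_cancel₀ (pow_ne_zero 2 hg0) ?_, hab q hq,
      (Nat.le_mul_of_pos_left _ hgp).trans h1, (Nat.le_mul_of_pos_left _ hgp).trans h2⟩
    linear_combination he + hm'
  · exact Nat.divisors_subset_of_dvd (Int.natAbs_ne_zero.2 hm)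
      (Int.natAbs_dvd_natAbs.2 ⟨_, hm'.trans (mul_comm _ _)⟩)

/-- **The points of bounded height on a conic `X² - N Y² = m`.** -/
theorem conic_card {N : ℕ} (hN : 1 ≤ N) {m : ℤ} (hm : m ≠ 0) {Z : ℕ} (S : Finset (ℤ × ℤ))
    (hS : ∀ p ∈ S, p.1 ^ 2 - (N : ℤ) * p.2 ^ 2 = m ∧ p.1.natAbs ≤ Z ∧ p.2.natAbs ≤ Z) :
    S.card ≤ 12 * m.natAbs.divisors.card ^ 2 * (Nat.log 2 ((1 + N) * (N * Z) ^ 2) + 1) := by
  classical
  obtain ⟨N₀, f, hNf, hsq⟩ := Nat.sq_mul_squarefree N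
  have hf : 1 ≤ f := Nat.pos_of_ne_zero (by rintro rfl; simp at hNf; omega)
  have hf0 : (f : ℤ) ≠ 0 := by omega
  have hN₀ : 1 ≤ N₀ := Nat.pos_of_ne_zero hsq.ne_zero
  have hf1 : f ≤ N := by
    rw [← hNf]
    exact (Nat.le_self_pow two_ne_zero f).trans (Nat.le_mul_of_pos_right _ hN₀)
  have hN1 : N₀ ≤ N := by rw [← hNf]; exact Nat.le_mul_of_pos_left _ (pow_pos hf 2)
  set φ : ℤ × ℤ → ℤ × ℤ := fun p => (p.1, (f : ℤ) * p.2)
  rw [← card_image_of_injective S (f := φ) fun p q e => by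
    simp only [φ, Prod.mk.injEq, mul_left_cancel_iff_of_pos (show (0 : ℤ) < f by omega)] at e
    exact Prod.ext e.1 e.2]
  refine (squarefree_card hsq hm (Z := N * Z) _ fun w hw => ?_).trans (Nat.mul_le_mul_left _
    (Nat.add_le_add_right (Nat.log_mono_right (Nat.mul_le_mul_right _ (by omega))) 1))
  obtain ⟨p, hp, rfl⟩ := mem_image.1 hw
  obtain ⟨he, h1, h2⟩ := hS p hp
  refine ⟨?_, h1.trans (Nat.le_mul_of_pos_left _ hN), ?_⟩
  · rw [← hNf] at he
    push_cast at he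
    show p.1 ^ 2 - (N₀ : ℤ) * ((f : ℤ) * p.2) ^ 2 = m
    linear_combination he
  · show ((f : ℤ) * p.2).natAbs ≤ N * Z
    rw [Int.natAbs_mul, Int.natAbs_natCast]
    exact Nat.mul_le_mul hf1 h2

end FA.SumsTwoCubesCount
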