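import Fermat.Agent.SumsTwoCubesCount.Conic
import Fermat.Agent.Forms3.RepresentationBound
import Mathlib.Analysis.PSeries

/-!
# Equal sums of two cubes

`D = x + y - u - v` divides `3 (x + y) (y - u) (x - u)`, so either `D` is small, and the divisors
of one number determine the solution, or one pairing has a large common factor `g`, and then
`(g, σ, τ)` leaves a point on a conic.
-/

set_option autoImplicit false

noncomputable section

open Finset

namespace FA.SumsTwoCubesCount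

/-- The solutions of `x³ + y³ = u³ + v³` in `[1, P]` other than the diagonal ones. -/
def equalCubes (P : ℕ) : Finset (ℤ × ℤ × ℤ × ℤ) :=
  (Icc 1 (P : ℤ) ×ˢ Icc 1 (P : ℤ) ×ˢ Icc 1 (P : ℤ) ×ˢ Icc 1 (P : ℤ)).filter fun q =>
    q.1 ^ 3 + q.2.1 ^ 3 = q.2.2.1 ^ 3 + q.2.2.2 ^ 3 ∧
      ¬(q.2.2.1 = q.1 ∧ q.2.2.2 = q.2.1) ∧ ¬(q.2.2.1 = q.2.1 ∧ q.2.2.2 = q.1)

theorem mem_equalCubes {P : ℕ} {x y u v : ℤ} :
    (x, y, u, v) ∈ equalCubes P ↔ ((1 ≤ x ∧ x ≤ P) ∧ (1 ≤ y ∧ y ≤ P) ∧ (1 ≤ u ∧ u ≤ P) ∧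
      (1 ≤ v ∧ v ≤ P)) ∧ x ^ 3 + y ^ 3 = u ^ 3 + v ^ 3 ∧ ¬(u = x ∧ v = y) ∧ ¬(u = y ∧ v = x) := by
  simp [equalCubes]

/-- The solutions in `[-P, P]` with a large common factor of the two sums. -/
def wideGcd (P G : ℕ) : Finset (ℤ × ℤ × ℤ × ℤ) :=
  (Icc (-(P : ℤ)) P ×ˢ Icc (-(P : ℤ)) P ×ˢ Icc (-(P : ℤ)) P ×ˢ Icc (-(P : ℤ)) P).filter fun q =>
    q.1 ^ 3 + q.2.1 ^ 3 = q.2.2.1 ^ 3 + q.2.2.2 ^ 3 ∧ q.1 + q.2.1 ≠ q.2.2.1 + q.2.2.2 ∧
      G < Int.gcd (q.1 + q.2.1) (q.2.2.1 + q.2.2.2)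

theorem identity {x y u v : ℤ} (h : x ^ 3 + y ^ 3 = u ^ 3 + v ^ 3) :
    (x + y - u - v) * (3 * v ^ 2 + 3 * v * (x + y - u - v) + (x + y - u - v) ^ 2) =
      3 * (x + y) * (y - u) * (x - u) := by
  linear_combination h

theorem diff_ne_zero {P : ℕ} {x y u v : ℤ} (h : (x, y, u, v) ∈ equalCubes P) :
    x + y - u - v ≠ 0 ∧ (x + y) * (y - u) * (x - u) ≠ 0 := by
  obtain ⟨⟨hx, hy, hu, hv⟩, he, h1, h2⟩ := mem_equalCubes.1 h
  have hinj : ∀ a b : ℤ, a ^ 3 = b ^ 3 → a = b := fun a b e =>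
    (Odd.pow_inj (by decide : Odd 3)).1 e
  have hyu : y - u ≠ 0 := fun e => by
    obtain rfl : y = u := by omega
    exact h2 ⟨rfl, hinj _ _ (by linarith)⟩
  have hxu : x - u ≠ 0 := fun e => by
    obtain rfl : x = u := by omega
    exact h1 ⟨rfl, hinj _ _ (by linarith)⟩
  have hprod : (x + y) * (y - u) * (x - u) ≠ 0 :=
    mul_ne_zero (mul_ne_zero (by omega) hyu) hxu
  refine ⟨fun e => hprod ?_, hprod⟩
  have := identity he
  rw [e] at this
  linarith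

/-- A bound for the divisor numbers needed. -/
def divisorSup (P : ℕ) : ℕ :=
  (range (96 * P ^ 4 + 1)).sup fun n => n.divisors.card

theorem card_divisors_le_sup {P n : ℕ} (h : n ≤ 96 * P ^ 4) :
    n.divisors.card ≤ divisorSup P :=
  le_sup (f := fun n => n.divisors.card) (mem_range.2 (by omega))

/-- The positive and negative divisors. -/
def signedDivisors (n : ℕ) : Finset ℤ :=
  n.divisors.image (fun d : ℕ => (d : ℤ)) ∪ n.divisors.image fun d : ℕ => -(d : ℤ)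

theorem mem_signedDivisors {n : ℕ} (hn : n ≠ 0) {a : ℤ} (h : a ∣ (n : ℤ)) :
    a ∈ signedDivisors n := by
  have hd : a.natAbs ∈ n.divisors := Nat.mem_divisors.2
    ⟨by simpa using Int.natAbs_dvd_natAbs.2 h, hn⟩
  rcases Int.natAbs_eq a with e | e
  · exact mem_union_left _ (mem_image.2 ⟨_, hd, e.symm⟩)
  · exact mem_union_right _ (mem_image.2 ⟨_, hd, e.symm⟩)

/-- Few solutions have small `D`. -/
theorem small_diff_card (P L : ℕ) :
    ((equalCubes P).filter fun q => (q.1 + q.2.1 - q.2.2.1 - q.2.2.2).natAbs ≤ L).card ≤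
      (2 * L + 1) * P * (2 * divisorSup P) ^ 3 := by
  classical
  set S := (equalCubes P).filter fun q => (q.1 + q.2.1 - q.2.2.1 - q.2.2.2).natAbs ≤ L
  have himg : (S.image fun q : ℤ × ℤ × ℤ × ℤ => (q.1 + q.2.1 - q.2.2.1 - q.2.2.2, q.2.2.2)).card ≤
      (2 * L + 1) * P := by
    refine (card_le_card (t := Icc (-(L : ℤ)) L ×ˢ Icc 1 (P : ℤ)) fun k hk => ?_).trans_eq ?_
    · obtain ⟨⟨x, y, u, v⟩, hq, rfl⟩ := mem_image.1 hk
      obtain ⟨hq, hL⟩ := mem_filter.1 hq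
      have := (mem_equalCubes.1 hq).1
      simp only [mem_product, mem_Icc] at hL ⊢
      omega
    · rw [card_product, Int.card_Icc, Int.card_Icc]
      congr 1 <;> omega
  refine (card_le_mul_card_image
    (f := fun q : ℤ × ℤ × ℤ × ℤ => (q.1 + q.2.1 - q.2.2.1 - q.2.2.2, q.2.2.2)) S
    ((2 * divisorSup P) ^ 3) fun k hk => ?_).trans
    ((Nat.mul_le_mul_left _ himg).trans_eq (by ring))
  obtain ⟨⟨x, y, u, v⟩, hq, rfl⟩ := mem_image.1 hk
  obtain ⟨hq, -⟩ := mem_filter.1 hq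
  obtain ⟨⟨hx, hy, hu, hv⟩, he, -⟩ := mem_equalCubes.1 hq
  obtain ⟨-, hne⟩ := diff_ne_zero hq
  set n := (3 * (x + y) * (y - u) * (x - u)).natAbs with hn
  have hn0 : n ≠ 0 := Int.natAbs_ne_zero.2 (by
    rw [mul_assoc, mul_assoc, ← mul_assoc (x + y)]; exact mul_ne_zero three_ne_zero hne)
  have hnP : n ≤ 96 * P ^ 4 := by
    have hP : 1 ≤ P := by omega
    rw [hn, Int.natAbs_mul, Int.natAbs_mul, Int.natAbs_mul]
    calc (3 : ℤ).natAbs * (x + y).natAbs * (y - u).natAbs * (x - u).natAbs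
        ≤ 3 * (2 * P) * P * P := by gcongr <;> omega
      _ ≤ 96 * P ^ 4 := by
          have : P ^ 3 ≤ P ^ 4 := Nat.pow_le_pow_right hP (by norm_num)
          rw [show 3 * (2 * P) * P * P = 6 * P ^ 3 by ring]
          omega
  set T := signedDivisors n
  have hT : T.card ≤ 2 * divisorSup P := by
    refine (card_union_le _ _).trans ?_
    have := card_divisors_le_sup hnP
    have h1 := card_image_le (s := n.divisors) (f := fun d : ℕ => (d : ℤ))
    have h2 := card_image_le (s := n.divisors) (f := fun d : ℕ => -(d : ℤ))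
    omega
  refine (card_le_card_of_injOn
    (fun q : ℤ × ℤ × ℤ × ℤ => (q.1 + q.2.1, q.2.1 - q.2.2.1, q.1 - q.2.2.1))
    (t := T ×ˢ T ×ˢ T) ?_ ?_).trans ?_
  · rintro ⟨x', y', u', v'⟩ hm
    obtain ⟨hmS, hk'⟩ := mem_filter.1 hm
    have heq' : x' ^ 3 + y' ^ 3 = u' ^ 3 + v' ^ 3 :=
      (mem_equalCubes.1 (mem_filter.1 hmS).1).2.1
    simp only [Prod.mk.injEq] at hk'
    obtain ⟨hD, hv'⟩ := hk'
    have e : 3 * (x' + y') * (y' - u') * (x' - u') = 3 * (x + y) * (y - u) * (x - u) := by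
      rw [← identity heq', ← identity he, hD, hv']
    have hdvd : ∀ a : ℤ, a ∣ 3 * (x' + y') * (y' - u') * (x' - u') → a ∈ T := fun a ha =>
      mem_signedDivisors hn0 (by rw [hn, Int.natCast_natAbs, dvd_abs, ← e]; exact ha)
    simp only [mem_coe, mem_product]
    exact ⟨hdvd _ (((dvd_mul_left _ 3).mul_right _).mul_right _),
      hdvd _ ((dvd_mul_left _ _).mul_right _), hdvd _ (dvd_mul_left _ _)⟩
  · rintro ⟨x', y', u', v'⟩ hm ⟨x'', y'', u'', v''⟩ hm' e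
    obtain ⟨-, h1⟩ := mem_filter.1 hm
    obtain ⟨-, h2⟩ := mem_filter.1 hm'
    simp only [Prod.mk.injEq] at h1 h2 e ⊢
    omega
  · rw [card_product, card_product]
    calc T.card * (T.card * T.card) ≤ 2 * divisorSup P * (2 * divisorSup P * (2 * divisorSup P)) :=
          Nat.mul_le_mul hT (Nat.mul_le_mul hT hT)
      _ = _ := by ring

/-- The triples `(g, σ, τ)`. -/
theorem triples_card {P G : ℕ} (hG : 1 ≤ G) :
    (((Ioc G (2 * P)).sigma fun g => Icc (-((2 * P / g : ℕ) : ℤ)) ((2 * P / g : ℕ) : ℤ) ×ˢ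
      Icc (-((2 * P / g : ℕ) : ℤ)) ((2 * P / g : ℕ) : ℤ)).card : ℝ) ≤
      36 * (P : ℝ) ^ 2 / G := by
  rw [card_sigma, Nat.cast_sum]
  rcases le_or_gt (2 * P) G with h | h
  · rw [Ioc_eq_empty_of_le h, sum_empty]
    positivity
  calc ∑ g ∈ Ioc G (2 * P), ((Icc (-((2 * P / g : ℕ) : ℤ)) ((2 * P / g : ℕ) : ℤ) ×ˢ
        Icc (-((2 * P / g : ℕ) : ℤ)) ((2 * P / g : ℕ) : ℤ)).card : ℝ)
      ≤ ∑ g ∈ Ioc G (2 * P), 36 * (P : ℝ) ^ 2 * ((g : ℝ) ^ 2)⁻¹ := by
        refine sum_le_sum fun g hg => ?_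
        obtain ⟨h1, h2⟩ := mem_Ioc.1 hg
        have hg0 : (0 : ℝ) < g := by exact_mod_cast (show 0 < g by omega)
        have hcard : ((Icc (-((2 * P / g : ℕ) : ℤ)) ((2 * P / g : ℕ) : ℤ)).card : ℝ) ≤
            6 * P / g := by
          have e : (Icc (-((2 * P / g : ℕ) : ℤ)) ((2 * P / g : ℕ) : ℤ)).card =
              2 * (2 * P / g) + 1 := by rw [Int.card_Icc]; omega
          rw [e, le_div_iff₀ hg0]
          have h3 : (((2 * P / g) * g : ℕ) : ℝ) ≤ ((2 * P : ℕ) : ℝ) :=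
            Nat.cast_le.2 (Nat.div_mul_le_self _ _)
          have h4 : (g : ℝ) ≤ ((2 * P : ℕ) : ℝ) := Nat.cast_le.2 h2
          push_cast at h3 h4 ⊢
          linarith
        rw [card_product, Nat.cast_mul]
        refine (mul_le_mul hcard hcard (Nat.cast_nonneg _) (by positivity)).trans_eq ?_
        field_simp
        ring
    _ ≤ 36 * (P : ℝ) ^ 2 * (G : ℝ)⁻¹ := by
        rw [← mul_sum]
        refine mul_le_mul_of_nonneg_left ((sum_Ioc_inv_sq_le_sub (α := ℝ) (by omega) h.le).trans ?_)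
          (by positivity)
        linarith [show (0 : ℝ) ≤ ((2 * P : ℕ) : ℝ)⁻¹ by positivity]
    _ = _ := (div_eq_mul_inv _ _).symm

/-- The logarithm in the conic bound. -/
def logBound (P : ℕ) : ℕ :=
  Nat.log 2 (2 ^ 14 * P ^ 10) + 1

/-- Few solutions have a large common factor. -/
theorem wide_card {P G : ℕ} (hG : 1 ≤ G) :
    ((wideGcd P G).card : ℝ) ≤
      36 * (P : ℝ) ^ 2 / G * (12 * (divisorSup P : ℝ) ^ 2 * logBound P) := by
  classical
  set key : ℤ × ℤ × ℤ × ℤ → (_ : ℕ) × ℤ × ℤ := fun q =>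
    ⟨Int.gcd (q.1 + q.2.1) (q.2.2.1 + q.2.2.2),
      (q.1 + q.2.1) / (Int.gcd (q.1 + q.2.1) (q.2.2.1 + q.2.2.2) : ℤ),
      (q.2.2.1 + q.2.2.2) / (Int.gcd (q.1 + q.2.1) (q.2.2.1 + q.2.2.2) : ℤ)⟩ with hkey
  have himg : (wideGcd P G).image key ⊆ (Ioc G (2 * P)).sigma fun g =>
      Icc (-((2 * P / g : ℕ) : ℤ)) ((2 * P / g : ℕ) : ℤ) ×ˢ
      Icc (-((2 * P / g : ℕ) : ℤ)) ((2 * P / g : ℕ) : ℤ) := by
    intro k hk
    obtain ⟨⟨a, b, c, e⟩, hq, rfl⟩ := mem_image.1 hk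
    simp only [wideGcd, mem_filter, mem_product, mem_Icc] at hq
    obtain ⟨⟨ha, hb, hc, he'⟩, -, hne, hg⟩ := hq
    set g := Int.gcd (a + b) (c + e)
    have hg0 : 0 < g := by omega
    obtain ⟨σ, hσ⟩ : (g : ℤ) ∣ a + b := Int.gcd_dvd_left _ _
    obtain ⟨τ, hτ⟩ : (g : ℤ) ∣ c + e := Int.gcd_dvd_right _ _
    have h1 : σ.natAbs * g ≤ 2 * P := by
      rw [show σ.natAbs * g = (a + b).natAbs by
        rw [hσ, Int.natAbs_mul, Int.natAbs_natCast, mul_comm]]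
      omega
    have h2 : τ.natAbs * g ≤ 2 * P := by
      rw [show τ.natAbs * g = (c + e).natAbs by
        rw [hτ, Int.natAbs_mul, Int.natAbs_natCast, mul_comm]]
      omega
    have h3 : g ≤ 2 * P := by
      by_cases h : σ = 0
      · have hτ0 : τ ≠ 0 := fun h' => hne (by rw [hσ, hτ, h, h'])
        exact le_trans (Nat.le_mul_of_pos_left _ (Int.natAbs_pos.2 hτ0)) h2
      · exact le_trans (Nat.le_mul_of_pos_left _ (Int.natAbs_pos.2 h)) h1
    rw [← Nat.le_div_iff_mul_le hg0] at h1 h2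
    simp only [key, mem_sigma, mem_Ioc, mem_product, mem_Icc]
    rw [show Int.gcd (a + b) (c + e) = g from rfl, hσ, hτ,
      Int.mul_ediv_cancel_left _ (Int.natCast_ne_zero.2 hg0.ne'),
      Int.mul_ediv_cancel_left _ (Int.natCast_ne_zero.2 hg0.ne')]
    omega
  have hfib : ∀ k ∈ (wideGcd P G).image key, ((wideGcd P G).filter fun q => key q = k).card ≤
      12 * divisorSup P ^ 2 * logBound P := by
    intro k hk
    obtain ⟨⟨a, b, c, e⟩, hq, rfl⟩ := mem_image.1 hk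
    simp only [wideGcd, mem_filter, mem_product, mem_Icc] at hq
    obtain ⟨⟨ha, hb, hc, he'⟩, heq, hne, hg⟩ := hq
    set g := Int.gcd (a + b) (c + e) with hgdef
    have hg0 : (g : ℤ) ≠ 0 := by omega
    obtain ⟨σ, hσ⟩ : (g : ℤ) ∣ a + b := Int.gcd_dvd_left _ _
    obtain ⟨τ, hτ⟩ : (g : ℤ) ∣ c + e := Int.gcd_dvd_right _ _
    have hστ : σ ≠ τ := fun h => hne (by rw [hσ, hτ, h])
    have h1 : ((g : ℤ) * σ).natAbs ≤ 2 * P := by rw [← hσ]; omega
    have h2 : ((g : ℤ) * τ).natAbs ≤ 2 * P := by rw [← hτ]; omega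
    have hform : ∀ a b : ℤ, 4 * (a ^ 3 + b ^ 3) = (a + b) * ((a + b) ^ 2 + 3 * (a - b) ^ 2) :=
      fun a b => by ring
    have hQ : σ * (((g : ℤ) * σ) ^ 2 + 3 * (a - b) ^ 2) =
        τ * (((g : ℤ) * τ) ^ 2 + 3 * (c - e) ^ 2) := by
      refine mul_left_cancel₀ hg0 ?_
      rw [← mul_assoc, ← mul_assoc, ← hσ, ← hτ, ← hform, ← hform, heq]
    have hσ0 : σ ≠ 0 := by
      intro h
      rw [h, zero_mul] at hQ
      rcases mul_eq_zero.1 hQ.symm with h' | h'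
      · exact hστ (h.trans h'.symm)
      · have : (g : ℤ) * τ = 0 := by nlinarith [sq_nonneg (c - e), sq_nonneg ((g : ℤ) * τ)]
        exact hστ (h.trans ((mul_eq_zero.1 this).resolve_left hg0).symm)
    have hpos : 0 < σ * τ := by
      have hp1 : 0 < ((g : ℤ) * σ) ^ 2 + 3 * (a - b) ^ 2 := by positivity
      have hp2 : 0 ≤ ((g : ℤ) * τ) ^ 2 + 3 * (c - e) ^ 2 := by positivity
      by_contra hle
      have h3 : 0 < σ ^ 2 * (((g : ℤ) * σ) ^ 2 + 3 * (a - b) ^ 2) := by positivity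
      have h4 := mul_nonneg (neg_nonneg.2 (not_lt.1 hle)) hp2
      nlinarith
    obtain ⟨N, hN⟩ : ∃ N : ℕ, (N : ℤ) = σ * τ := ⟨(σ * τ).toNat, Int.toNat_of_nonneg hpos.le⟩
    set m : ℤ := 3 * σ * (g : ℤ) ^ 2 * (τ ^ 3 - σ ^ 3) with hm
    have hm0 : m ≠ 0 := mul_ne_zero
      (mul_ne_zero (mul_ne_zero three_ne_zero hσ0) (pow_ne_zero 2 hg0))
      (sub_ne_zero.2 fun h => hστ ((Odd.pow_inj (by decide : Odd 3)).1 h).symm)
    have hg1 : 1 ≤ g := by omega
    have hσP : σ.natAbs ≤ 2 * P := by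
      rw [Int.natAbs_mul, Int.natAbs_natCast] at h1
      exact (Nat.le_mul_of_pos_left _ hg1).trans h1
    have hτP : τ.natAbs ≤ 2 * P := by
      rw [Int.natAbs_mul, Int.natAbs_natCast] at h2
      exact (Nat.le_mul_of_pos_left _ hg1).trans h2
    have hNP : N ≤ 4 * P ^ 2 := by
      have : N = σ.natAbs * τ.natAbs := by rw [← Int.natAbs_mul, ← hN, Int.natAbs_natCast]
      rw [this]
      exact (Nat.mul_le_mul hσP hτP).trans_eq (by ring)
    have hN1 : 1 ≤ N := by omega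
    have hP1 : 1 ≤ P := by omega
    have hmP : m.natAbs ≤ 96 * P ^ 4 := by
      have e1 : m.natAbs ≤ 3 * (g * σ.natAbs) * (g * τ.natAbs ^ 3 + g * σ.natAbs ^ 3) := by
        rw [hm, Int.natAbs_mul, Int.natAbs_mul, Int.natAbs_mul, Int.natAbs_pow,
          Int.natAbs_natCast]
        refine (Nat.mul_le_mul_left _ (Int.natAbs_sub_le _ _)).trans_eq ?_
        rw [Int.natAbs_pow, Int.natAbs_pow]
        simp only [Int.reduceAbs]
        ring
      rw [Int.natAbs_mul, Int.natAbs_natCast] at h1 h2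
      have e2 : ∀ z : ℕ, g * z ≤ 2 * P → g * z ^ 3 ≤ 8 * P ^ 3 := fun z hz =>
        calc g * z ^ 3 ≤ (g * z) ^ 3 := by
              rw [mul_pow]
              exact Nat.mul_le_mul_right _ (Nat.le_self_pow three_ne_zero g)
          _ ≤ (2 * P) ^ 3 := Nat.pow_le_pow_left hz 3
          _ = _ := by ring
      refine e1.trans ((Nat.mul_le_mul (Nat.mul_le_mul_left 3 h1)
        (Nat.add_le_add (e2 _ h2) (e2 _ h1))).trans_eq (by ring))
    set φ : ℤ × ℤ × ℤ × ℤ → ℤ × ℤ := fun q =>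
      (3 * σ * (q.1 - q.2.1), 3 * (q.2.2.1 - q.2.2.2)) with hφ
    have hmem : ∀ q ∈ (wideGcd P G).filter (fun q => key q = key (a, b, c, e)),
        (q.1 + q.2.1 = (g : ℤ) * σ ∧ q.2.2.1 + q.2.2.2 = (g : ℤ) * τ) ∧ q ∈ wideGcd P G := by
      intro q hq
      obtain ⟨hq, hk⟩ := mem_filter.1 hq
      simp only [key, Sigma.mk.injEq, heq_eq_eq, Prod.mk.injEq] at hk
      obtain ⟨hk1, hk2, hk3⟩ := hk
      rw [← hgdef] at hk1 hk2 hk3
      rw [hk1, hσ, Int.mul_ediv_cancel_left _ hg0] at hk2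
      rw [hk1, hτ, Int.mul_ediv_cancel_left _ hg0] at hk3
      have hd := hk1 ▸ Int.gcd_dvd_left (q.1 + q.2.1) (q.2.2.1 + q.2.2.2)
      have hd' := hk1 ▸ Int.gcd_dvd_right (q.1 + q.2.1) (q.2.2.1 + q.2.2.2)
      refine ⟨⟨?_, ?_⟩, hq⟩
      · rw [← hk2, Int.mul_ediv_cancel' hd]
      · rw [← hk3, Int.mul_ediv_cancel' hd']
    rw [← card_image_of_injOn (f := φ) fun q hq q' hq' e => ?_]
    · refine (conic_card hN1 hm0 (Z := 12 * P ^ 2) _ fun w hw => ?_).trans ?_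
      · obtain ⟨q, hq, rfl⟩ := mem_image.1 hw
        obtain ⟨⟨hs, ht⟩, hqW⟩ := hmem q hq
        obtain ⟨a', b', c', e'⟩ := q
        simp only [wideGcd, mem_filter, mem_product, mem_Icc] at hqW
        obtain ⟨⟨ha1, hb1, hc1, he1⟩, heq', -⟩ := hqW
        simp only [hφ] at hs ht ⊢
        refine ⟨?_, ?_, ?_⟩
        · have h4 : σ * (((g : ℤ) * σ) ^ 2 + 3 * (a' - b') ^ 2) =
              τ * (((g : ℤ) * τ) ^ 2 + 3 * (c' - e') ^ 2) := by
            refine mul_left_cancel₀ hg0 ?_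
            rw [← mul_assoc, ← mul_assoc, ← hs, ← ht, ← hform, ← hform, heq']
          rw [hN, hm]
          linear_combination 3 * σ * h4
        · rw [Int.natAbs_mul, Int.natAbs_mul]
          calc (3 : ℤ).natAbs * σ.natAbs * (a' - b').natAbs ≤ 3 * (2 * P) * (2 * P) := by
                gcongr <;> omega
            _ = _ := by ring
        · rw [Int.natAbs_mul]
          calc (3 : ℤ).natAbs * (c' - e').natAbs ≤ 3 * (2 * P) := by gcongr <;> omega
            _ ≤ _ := by nlinarith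
      · refine Nat.mul_le_mul (Nat.mul_le_mul_left _ (Nat.pow_le_pow_left
          (card_divisors_le_sup hmP) 2)) (Nat.add_le_add_right (Nat.log_mono_right ?_) 1)
        calc (1 + N) * (N * (12 * P ^ 2)) ^ 2
            ≤ (P ^ 2 + 4 * P ^ 2) * (4 * P ^ 2 * (12 * P ^ 2)) ^ 2 := by
              gcongr
              exact Nat.one_le_pow _ _ hP1
          _ = 11520 * P ^ 10 := by ring
          _ ≤ _ := Nat.mul_le_mul_right _ (by norm_num)
    · obtain ⟨⟨h3, h4⟩, -⟩ := hmem q hq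
      obtain ⟨⟨h5, h6⟩, -⟩ := hmem q' hq'
      simp only [hφ, Prod.mk.injEq] at e
      have h7 := mul_left_cancel₀ (mul_ne_zero three_ne_zero hσ0) e.1
      refine Prod.ext ?_ (Prod.ext ?_ (Prod.ext ?_ ?_)) <;> omega
  have h := Nat.mul_le_mul_left (12 * divisorSup P ^ 2 * logBound P) (card_le_card himg)
  calc ((wideGcd P G).card : ℝ)
      ≤ ((12 * divisorSup P ^ 2 * logBound P *
        ((Ioc G (2 * P)).sigma fun g => Icc (-((2 * P / g : ℕ) : ℤ)) ((2 * P / g : ℕ) : ℤ) ×ˢ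
          Icc (-((2 * P / g : ℕ) : ℤ)) ((2 * P / g : ℕ) : ℤ)).card : ℕ) : ℝ) :=
        Nat.cast_le.2 ((card_le_mul_card_image _ _ hfib).trans h)
    _ ≤ _ := by
        rw [Nat.cast_mul, mul_comm]
        push_cast
        exact mul_le_mul_of_nonneg_right (triples_card hG) (by positivity)

/-- The two cases. -/
theorem equalCubes_card {P G : ℕ} (hG : 1 ≤ G) :
    ((equalCubes P).card : ℝ) ≤ (6 * (G : ℝ) ^ 3 + 1) * P * (2 * (divisorSup P : ℝ)) ^ 3 +
      3 * (36 * (P : ℝ) ^ 2 / G * (12 * (divisorSup P : ℝ) ^ 2 * logBound P)) := by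
  classical
  set S₀ := (equalCubes P).filter fun q =>
    (q.1 + q.2.1 - q.2.2.1 - q.2.2.2).natAbs ≤ 3 * G ^ 3
  set f₁ : ℤ × ℤ × ℤ × ℤ → ℤ × ℤ × ℤ × ℤ := fun q => q
  set f₂ : ℤ × ℤ × ℤ × ℤ → ℤ × ℤ × ℤ × ℤ := fun q => (q.1, -q.2.2.1, q.2.2.2, -q.2.1)
  set f₃ : ℤ × ℤ × ℤ × ℤ → ℤ × ℤ × ℤ × ℤ := fun q => (q.1, -q.2.2.2, q.2.2.1, -q.2.1)
  set W := fun f : ℤ × ℤ × ℤ × ℤ → ℤ × ℤ × ℤ × ℤ =>
    (equalCubes P).filter fun q => f q ∈ wideGcd P G with hW
  have hW' : ∀ f : ℤ × ℤ × ℤ × ℤ → ℤ × ℤ × ℤ × ℤ, Function.Injective f →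
      (W f).card ≤ (wideGcd P G).card := fun f hf =>
    card_le_card_of_injOn f (fun q hq => (mem_filter.1 hq).2) hf.injOn
  have hcover : equalCubes P ⊆ S₀ ∪ (W f₁ ∪ (W f₂ ∪ W f₃)) := by
    rintro ⟨x, y, u, v⟩ hq
    obtain ⟨⟨hx, hy, hu, hv⟩, he, h1, h2⟩ := mem_equalCubes.1 hq
    obtain ⟨hD, -⟩ := diff_ne_zero hq
    set D := x + y - u - v with hDdef
    simp only [mem_union, S₀, W, f₁, f₂, f₃, mem_filter, hq, true_and]
    by_contra hcon
    simp only [not_or] at hcon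
    obtain ⟨hs, hw1, hw2, hw3⟩ := hcon
    refine hs ?_
    have hcube : ∀ z : ℤ, (-z) ^ 3 = -z ^ 3 := fun z => by ring
    have g1 : Int.gcd D (x + y) ≤ G := by
      rw [show Int.gcd D (x + y) = Int.gcd (x + y) (u + v) by
        rw [hDdef, Int.gcd_comm, show x + y - u - v = x + y - (u + v) by ring,
          Int.gcd_self_sub_right]]
      by_contra hlt
      refine hw1 ?_
      simp only [wideGcd, mem_filter, mem_product, mem_Icc]
      exact ⟨by omega, he, by omega, by omega⟩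
    have g2 : Int.gcd D (x - u) ≤ G := by
      rw [show Int.gcd D (x - u) = Int.gcd (x + -u) (v + -y) by
        rw [hDdef, Int.gcd_comm, show x + y - u - v = x - u - (v - y) by ring,
          Int.gcd_self_sub_right, sub_eq_add_neg, sub_eq_add_neg]]
      by_contra hlt
      refine hw2 ?_
      simp only [wideGcd, mem_filter, mem_product, mem_Icc, hcube]
      exact ⟨by omega, by linarith, by omega, by omega⟩
    have g3 : Int.gcd D (y - u) ≤ G := by
      rw [show Int.gcd D (y - u) = Int.gcd (x + -v) (u + -y) by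
        rw [hDdef, Int.gcd_comm, show x + y - u - v = y - u - (v - x) by ring,
          Int.gcd_self_sub_right, show v - x = -(x + -v) by ring,
          show y - u = -(u + -y) by ring, Int.gcd_neg, Int.neg_gcd, Int.gcd_comm]]
      by_contra hlt
      refine hw3 ?_
      simp only [wideGcd, mem_filter, mem_product, mem_Icc, hcube]
      exact ⟨by omega, by linarith, by omega, by omega⟩
    have hdvd : D.natAbs ∣ 3 * (x + y).natAbs * (y - u).natAbs * (x - u).natAbs := by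
      have : D ∣ 3 * (x + y) * (y - u) * (x - u) := ⟨_, (identity he).symm⟩
      simpa [Int.natAbs_mul] using Int.natAbs_dvd_natAbs.2 this
    have h3 : D.natAbs ∣ Nat.gcd D.natAbs 3 * Int.gcd D (x + y) * Int.gcd D (y - u) *
        Int.gcd D (x - u) := by
      refine (Nat.gcd_eq_left hdvd).symm.dvd.trans ?_
      refine Nat.dvd_trans (Nat.gcd_mul_right_dvd_mul_gcd _ _ _) (Nat.mul_dvd_mul_right ?_ _)
      refine Nat.dvd_trans (Nat.gcd_mul_right_dvd_mul_gcd _ _ _) (Nat.mul_dvd_mul_right ?_ _)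
      exact Nat.gcd_mul_right_dvd_mul_gcd _ _ _
    have hgpos : ∀ z, 0 < Int.gcd D z := fun z => Int.gcd_pos_of_ne_zero_left _ hD
    refine (Nat.le_of_dvd ?_ h3).trans ?_
    · have := Nat.gcd_pos_of_pos_right D.natAbs three_pos
      have := hgpos (x + y); have := hgpos (y - u); have := hgpos (x - u)
      positivity
    · calc Nat.gcd D.natAbs 3 * Int.gcd D (x + y) * Int.gcd D (y - u) * Int.gcd D (x - u)
          ≤ 3 * G * G * G := by
            gcongr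
            exact Nat.gcd_le_right _ three_pos
        _ = _ := by ring
  have hcard : (equalCubes P).card ≤ S₀.card + 3 * (wideGcd P G).card := by
    have hf1 := hW' f₁ fun a b h => h
    have hf2 := hW' f₂ fun a b h => by
      simp only [f₂, Prod.mk.injEq, neg_inj] at h
      exact Prod.ext h.1 (Prod.ext h.2.2.2 (Prod.ext h.2.1 h.2.2.1))
    have hf3 := hW' f₃ fun a b h => by
      simp only [f₃, Prod.mk.injEq, neg_inj] at h
      exact Prod.ext h.1 (Prod.ext h.2.2.2 (Prod.ext h.2.2.1 h.2.1))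
    have := (card_le_card hcover).trans (card_union_le _ _)
    have := card_union_le (W f₁) (W f₂ ∪ W f₃)
    have := card_union_le (W f₂) (W f₃)
    omega
  calc ((equalCubes P).card : ℝ) ≤ (S₀.card : ℝ) + 3 * ((wideGcd P G).card : ℝ) := by
        exact_mod_cast hcard
    _ ≤ _ := add_le_add ?_ (mul_le_mul_of_nonneg_left (wide_card hG) (by norm_num))
  calc (S₀.card : ℝ) ≤ (((2 * (3 * G ^ 3) + 1) * P * (2 * divisorSup P) ^ 3 : ℕ) : ℝ) :=
        Nat.cast_le.2 (small_diff_card P _)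
    _ = _ := by push_cast; ring

/-- **Equal sums of two cubes are rare**: `O (P ^ (7/4 + ε))` non-diagonal solutions. -/
theorem equalCubes_bound {ε : ℝ} (hε : 0 < ε) :
    ∃ C : ℝ, 0 < C ∧ ∀ P : ℕ, 1 ≤ P →
      ((equalCubes P).card : ℝ) ≤ C * (P : ℝ) ^ (7 / 4 + ε) := by
  obtain ⟨C₀, hC₀, hdiv⟩ := RepresentationBound.card_divisors_isBigO (ε / 30) (by positivity)
  set A : ℝ := C₀ * (2 ^ 14 : ℝ) ^ (ε / 30) with hA
  have hA1 : 1 ≤ A :=
    one_le_mul_of_one_le_of_one_le hC₀ (Real.one_le_rpow (by norm_num) (by positivity))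
  refine ⟨(49 * 8 + 3 * 36 * 12) * A ^ 3, by positivity, fun P hP => ?_⟩
  set F : ℝ := A * (P : ℝ) ^ (ε / 3) with hF
  have hP1 : (1 : ℝ) ≤ P := Nat.one_le_cast.2 hP
  have hF1 : 1 ≤ F := one_le_mul_of_one_le_of_one_le hA1 (Real.one_le_rpow hP1 (by positivity))
  have hsmall : ∀ n : ℕ, n ≠ 0 → n ≤ 2 ^ 14 * P ^ 10 → (n.divisors.card : ℝ) ≤ F := by
    intro n hn hnP
    refine (hdiv n hn).trans ?_
    rw [hF, hA, mul_assoc]
    refine mul_le_mul_of_nonneg_left ?_ (le_trans zero_le_one hC₀)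
    calc (n : ℝ) ^ (ε / 30) ≤ ((2 ^ 14 * P ^ 10 : ℕ) : ℝ) ^ (ε / 30) :=
          Real.rpow_le_rpow (by positivity) (Nat.cast_le.2 hnP) (by positivity)
      _ = _ := by
          push_cast
          rw [Real.mul_rpow (by positivity) (by positivity), ← Real.rpow_natCast (P : ℝ),
            ← Real.rpow_mul (by positivity)]
          ring_nf
  have hsup : (divisorSup P : ℝ) ≤ F := by
    obtain ⟨n, hn, he⟩ := (range (96 * P ^ 4 + 1)).exists_mem_eq_sup (by simp)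
      (fun n => n.divisors.card)
    rw [divisorSup, he]
    rcases eq_or_ne n 0 with rfl | hn0
    · simp; linarith
    refine hsmall n hn0 ((Nat.lt_succ_iff.1 (mem_range.1 hn)).trans ?_)
    exact Nat.mul_le_mul (by norm_num) (Nat.pow_le_pow_right hP (by norm_num))
  have hlog : (logBound P : ℝ) ≤ F := by
    have h0 : 2 ^ 14 * P ^ 10 ≠ 0 := by positivity
    have h := hsmall (2 ^ Nat.log 2 (2 ^ 14 * P ^ 10)) (by positivity) (Nat.pow_log_le_self 2 h0)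
    rwa [Nat.divisors_prime_pow Nat.prime_two, card_map, card_range, ← logBound] at h
  set G := ⌈(P : ℝ) ^ (1 / 4 : ℝ)⌉₊
  have hroot : 1 ≤ (P : ℝ) ^ (1 / 4 : ℝ) := Real.one_le_rpow hP1 (by norm_num)
  have hG1 : 1 ≤ G := Nat.one_le_ceil_iff.2 (by linarith)
  have hGle : (G : ℝ) ≤ 2 * (P : ℝ) ^ (1 / 4 : ℝ) := by
    linarith [Nat.ceil_lt_add_one (show 0 ≤ (P : ℝ) ^ (1 / 4 : ℝ) by positivity)]
  have hG3 : (6 * (G : ℝ) ^ 3 + 1) * P ≤ 49 * (P : ℝ) ^ (7 / 4 : ℝ) := by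
    have h1 : (G : ℝ) ^ 3 ≤ 8 * ((P : ℝ) ^ (1 / 4 : ℝ)) ^ 3 := by
      rw [show (8 : ℝ) = 2 ^ 3 by norm_num, ← mul_pow]
      exact pow_le_pow_left₀ (Nat.cast_nonneg _) hGle 3
    have h2 : ((P : ℝ) ^ (1 / 4 : ℝ)) ^ 3 * P = (P : ℝ) ^ (7 / 4 : ℝ) := by
      rw [← Real.rpow_natCast _ 3, ← Real.rpow_mul (by positivity),
        ← Real.rpow_add_one (by positivity)]
      norm_num
    have h3 : (1 : ℝ) ≤ ((P : ℝ) ^ (1 / 4 : ℝ)) ^ 3 := one_le_pow₀ hroot
    rw [← h2]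
    nlinarith
  have hP2 : (P : ℝ) ^ 2 / G ≤ (P : ℝ) ^ (7 / 4 : ℝ) := by
    refine (div_le_div_of_nonneg_left (by positivity) (by positivity) (Nat.le_ceil _)).trans_eq ?_
    rw [← Real.rpow_natCast _ 2, ← Real.rpow_sub (by positivity)]
    norm_num
  refine (equalCubes_card hG1).trans ?_
  have hd0 : (0 : ℝ) ≤ divisorSup P := Nat.cast_nonneg _
  calc (6 * (G : ℝ) ^ 3 + 1) * P * (2 * (divisorSup P : ℝ)) ^ 3 +
        3 * (36 * (P : ℝ) ^ 2 / G * (12 * (divisorSup P : ℝ) ^ 2 * logBound P))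
      = (6 * (G : ℝ) ^ 3 + 1) * P * (8 * (divisorSup P : ℝ) ^ 3) +
        (3 * 36 * 12) * ((P : ℝ) ^ 2 / G * ((divisorSup P : ℝ) ^ 2 * logBound P)) := by ring
    _ ≤ 49 * (P : ℝ) ^ (7 / 4 : ℝ) * (8 * F ^ 3) +
        (3 * 36 * 12) * ((P : ℝ) ^ (7 / 4 : ℝ) * (F ^ 2 * F)) := by gcongr
    _ = (49 * 8 + 3 * 36 * 12) * (P : ℝ) ^ (7 / 4 : ℝ) * F ^ 3 := by ring
    _ = _ := by
        rw [hF, mul_pow, ← Real.rpow_natCast ((P : ℝ) ^ (ε / 3)) 3,
          ← Real.rpow_mul (by positivity), Real.rpow_add (by positivity)]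
        push_cast
        ring_nf

end FA.SumsTwoCubesCount

end
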