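import Fermat.Agent.SumsTwoCubesCount.Equal
import Mathlib.Analysis.BoxIntegral.UnitPartition
import Mathlib.MeasureTheory.Measure.Lebesgue.VolumeOfBalls

/-!
# The number of sums of two cubes

The pairs `(x, y)` with `x³ + y³ ≤ N` are counted by the area of `|x|³ + |y|³ ≤ 1`, and the values
repeat `O (N ^ (7/12 + ε))` times.
-/

set_option autoImplicit false

noncomputable section

open Finset Filter MeasureTheory Real
open scoped Topology Pointwise

namespace FA.SumsTwoCubesCount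

/-- The side of the box which contains all pairs. -/
def side (N : ℕ) : ℕ :=
  ⌊(N : ℝ) ^ (1 / 3 : ℝ)⌋₊

theorem le_side {x N : ℕ} (h : x ^ 3 ≤ N) : x ≤ side N := by
  refine Nat.le_floor ?_
  have h' := Real.rpow_le_rpow (by positivity) (Nat.cast_le (α := ℝ).2 h)
    (show (0 : ℝ) ≤ 1 / 3 by norm_num)
  push_cast at h'
  rwa [← Real.rpow_natCast _ 3, ← Real.rpow_mul (Nat.cast_nonneg x),
    show (((3 : ℕ) : ℝ) * (1 / 3)) = 1 by norm_num, Real.rpow_one] at h'

theorem side_le (N : ℕ) : (side N : ℝ) ≤ (N : ℝ) ^ (1 / 3 : ℝ) :=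
  Nat.floor_le (by positivity)

/-- The ordered pairs. -/
def quadrant (N : ℕ) : Finset (ℕ × ℕ) :=
  (Icc 1 (side N) ×ˢ Icc 1 (side N)).filter fun p => p.1 ^ 3 + p.2 ^ 3 ≤ N

theorem mem_quadrant {N : ℕ} {p : ℕ × ℕ} :
    p ∈ quadrant N ↔ (0 < p.1 ∧ 0 < p.2) ∧ p.1 ^ 3 + p.2 ^ 3 ≤ N := by
  simp only [quadrant, mem_filter, mem_product, mem_Icc]
  refine ⟨fun h => ⟨⟨by omega, by omega⟩, h.2⟩, fun h => ⟨⟨⟨h.1.1, ?_⟩, h.1.2, ?_⟩, h.2⟩⟩ <;>
    exact le_side (by omega)

/-- The unordered pairs. -/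
def halfQuadrant (N : ℕ) : Finset (ℕ × ℕ) :=
  (quadrant N).filter fun p => p.1 ≤ p.2

/-- The values. -/
def values (N : ℕ) : Finset ℕ :=
  (halfQuadrant N).image fun p => p.1 ^ 3 + p.2 ^ 3

/-- The unordered pairs whose value has another one. -/
def repeated (N : ℕ) : Finset (ℕ × ℕ) :=
  (halfQuadrant N).filter fun p => ∃ q ∈ halfQuadrant N, q ≠ p ∧
    q.1 ^ 3 + q.2 ^ 3 = p.1 ^ 3 + p.2 ^ 3

theorem coe_values (N : ℕ) : (values N : Set ℕ) =
    {m | m ≤ N ∧ ∃ x y : ℕ, 0 < x ∧ 0 < y ∧ x ^ 3 + y ^ 3 = m} := by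
  ext m
  simp only [values, coe_image, Set.mem_image, mem_coe, halfQuadrant, mem_filter, mem_quadrant,
    Set.mem_ofPred_eq, Prod.exists]
  constructor
  · rintro ⟨x, y, ⟨⟨⟨hx, hy⟩, h⟩, -⟩, rfl⟩
    exact ⟨h, x, y, hx, hy, rfl⟩
  · rintro ⟨hm, x, y, hx, hy, rfl⟩
    rcases le_total x y with h | h
    · exact ⟨x, y, ⟨⟨⟨hx, hy⟩, hm⟩, h⟩, rfl⟩
    · exact ⟨y, x, ⟨⟨⟨hy, hx⟩, by omega⟩, h⟩, by omega⟩

/-- Repetitions are non-diagonal equal sums. -/
theorem repeated_card (N : ℕ) : (repeated N).card ≤ (equalCubes (side N)).card := by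
  classical
  have hex : ∀ p ∈ repeated N, ∃ q ∈ halfQuadrant N, q ≠ p ∧
      q.1 ^ 3 + q.2 ^ 3 = p.1 ^ 3 + p.2 ^ 3 := fun p hp => (mem_filter.1 hp).2
  choose! q hq hne he using hex
  refine card_le_card_of_injOn
    (fun p => ((p.1 : ℤ), (p.2 : ℤ), ((q p).1 : ℤ), ((q p).2 : ℤ))) (fun p hp => ?_)
    fun p _ p' _ e => ?_
  · have hp' := (mem_filter.1 hp).1
    have hq' := hq p hp
    have hne' := hne p hp
    have he' := he p hp
    simp only [mem_coe]
    generalize q p = w at hq' hne' he' ⊢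
    obtain ⟨x, y⟩ := p
    obtain ⟨u, v⟩ := w
    dsimp only at hne' he' ⊢
    simp only [halfQuadrant, quadrant, mem_filter, mem_product, mem_Icc] at hp' hq'
    simp only [ne_eq, Prod.mk.injEq] at hne'
    simp only [mem_equalCubes, Nat.cast_inj]
    refine ⟨by omega, by exact_mod_cast he'.symm, by omega, by omega⟩
  · simp only [Prod.mk.injEq, Nat.cast_inj] at e
    exact Prod.ext e.1 e.2.1

theorem values_card_bounds (N : ℕ) :
    (values N).card ≤ (halfQuadrant N).card ∧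
      (halfQuadrant N).card ≤ (values N).card + (repeated N).card ∧
      (quadrant N).card ≤ 2 * (halfQuadrant N).card ∧
      2 * (halfQuadrant N).card ≤ (quadrant N).card + side N := by
  classical
  refine ⟨card_image_le, ?_, ?_⟩
  · have hinj : Set.InjOn (fun p : ℕ × ℕ => p.1 ^ 3 + p.2 ^ 3)
        ((halfQuadrant N).filter fun p => p ∉ repeated N) := fun p hp q hq e => by
      obtain ⟨hp1, hp2⟩ := mem_filter.1 hp
      by_contra hne
      exact hp2 (mem_filter.2 ⟨hp1, q, (mem_filter.1 hq).1, Ne.symm hne, e.symm⟩)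
    have h1 : ((halfQuadrant N).filter fun p => p ∉ repeated N).card ≤ (values N).card :=
      card_le_card_of_injOn _ (fun p hp => mem_image_of_mem _ (mem_filter.1 hp).1) hinj
    have h2 : ((halfQuadrant N).filter fun p => p ∈ repeated N).card ≤ (repeated N).card :=
      card_le_card fun p hp => (mem_filter.1 hp).2
    have h3 := card_filter_add_card_filter_not (s := halfQuadrant N) (p := fun p => p ∈ repeated N)
    omega
  have hswap : ((quadrant N).filter fun p => p.2 ≤ p.1).card = (halfQuadrant N).card := by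
    refine card_bij' (fun p _ => p.swap) (fun p _ => p.swap) (fun p hp => ?_) (fun p hp => ?_)
      (fun p _ => rfl) fun p _ => rfl <;>
    · simp only [halfQuadrant, mem_filter, mem_quadrant, Prod.fst_swap, Prod.snd_swap] at hp ⊢
      omega
  have hunion : (quadrant N).filter (fun p => p.1 ≤ p.2) ∪ (quadrant N).filter (fun p => p.2 ≤ p.1)
      = quadrant N := by
    rw [← filter_or, filter_true_of_mem fun p _ => le_total _ _]
  have hinter : ((quadrant N).filter (fun p => p.1 ≤ p.2) ∩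
      (quadrant N).filter (fun p => p.2 ≤ p.1)).card ≤ side N := by
    refine (card_le_card_of_injOn Prod.fst (t := Icc 1 (side N)) (fun p hp => ?_)
      fun p hp q hq e => ?_).trans_eq (by simp)
    · simp only [coe_inter, Set.mem_inter_iff, mem_coe, mem_filter, quadrant, mem_product,
        mem_Icc, coe_Icc, Set.mem_Icc] at hp ⊢
      omega
    · simp only [coe_inter, Set.mem_inter_iff, mem_coe, mem_filter] at hp hq
      exact Prod.ext e (by omega)
  have h := card_union_add_card_inter ((quadrant N).filter fun p => p.1 ≤ p.2)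
    ((quadrant N).filter fun p => p.2 ≤ p.1)
  rw [hunion, hswap] at h
  change _ = (halfQuadrant N).card + (halfQuadrant N).card at h
  omega

/-- The symmetric lattice points. -/
def symmetricPoints (N : ℕ) : Finset (ℤ × ℤ) :=
  (Icc (-(side N : ℤ)) (side N) ×ˢ Icc (-(side N : ℤ)) (side N)).filter fun p =>
    p.1.natAbs ^ 3 + p.2.natAbs ^ 3 ≤ N

theorem symmetric_card (N : ℕ) :
    4 * (quadrant N).card ≤ (symmetricPoints N).card ∧
      (symmetricPoints N).card ≤ 4 * (quadrant N).card + 4 * side N + 2 := by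
  classical
  have hoff : ((symmetricPoints N).filter fun p => p.1 ≠ 0 ∧ p.2 ≠ 0).card =
      4 * (quadrant N).card := by
    rw [show 4 * (quadrant N).card =
      (quadrant N ×ˢ (univ : Finset (Bool × Bool))).card by simp; ring]
    refine card_bij' (fun p _ => ((p.1.natAbs, p.2.natAbs), (decide (0 < p.1), decide (0 < p.2))))
      (fun w _ => ((if w.2.1 then (w.1.1 : ℤ) else -(w.1.1 : ℤ)),
        (if w.2.2 then (w.1.2 : ℤ) else -(w.1.2 : ℤ)))) (fun p hp => ?_) (fun w hw => ?_)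
      (fun p hp => ?_) fun w hw => ?_
    · simp only [mem_filter, symmetricPoints] at hp
      simp only [mem_product, mem_quadrant, mem_univ, and_true]
      exact ⟨⟨Int.natAbs_pos.2 hp.2.1, Int.natAbs_pos.2 hp.2.2⟩, hp.1.2⟩
    · obtain ⟨⟨x, y⟩, s, t⟩ := w
      simp only [mem_product, quadrant, mem_filter, mem_Icc, mem_univ, and_true] at hw
      have h1 : ∀ (b : Bool) (z : ℕ), (if b then (z : ℤ) else -(z : ℤ)).natAbs = z := fun b z => by
        cases b <;> simp
      simp only [mem_filter, symmetricPoints, mem_product, mem_Icc, h1]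
      refine ⟨⟨⟨?_, ?_⟩, hw.2⟩, ?_⟩
      all_goals cases s <;> cases t <;> simp <;> omega
    · obtain ⟨a, b⟩ := p
      simp only [decide_eq_true_eq, Prod.mk.injEq]
      constructor <;> split_ifs <;> omega
    · obtain ⟨⟨x, y⟩, s, t⟩ := w
      simp only [mem_product, mem_quadrant, mem_univ, and_true] at hw
      obtain ⟨⟨hx, hy⟩, -⟩ := hw
      cases s <;> cases t <;>
        simp only [Bool.false_eq_true, if_false, if_true, Int.natAbs_neg, Int.natAbs_natCast,
          Prod.mk.injEq, true_and, decide_eq_true_eq, decide_eq_false_iff_not] <;> omega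
  have haxes : ((symmetricPoints N).filter fun p => ¬(p.1 ≠ 0 ∧ p.2 ≠ 0)).card ≤
      4 * side N + 2 := by
    refine (card_le_card (t := ({0} : Finset ℤ) ×ˢ Icc (-(side N : ℤ)) (side N) ∪
      Icc (-(side N : ℤ)) (side N) ×ˢ ({0} : Finset ℤ)) fun p hp => ?_).trans
      ((card_union_le _ _).trans ?_)
    · simp only [mem_filter, symmetricPoints, mem_product, mem_Icc] at hp
      simp only [mem_union, mem_product, mem_singleton, mem_Icc]
      omega
    · simp only [card_product, card_singleton, Int.card_Icc]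
      omega
  have h := card_filter_add_card_filter_not (s := symmetricPoints N)
    (p := fun p => p.1 ≠ 0 ∧ p.2 ≠ 0)
  omega

/-- The region `|x|³ + |y|³ ≤ 1`. -/
def cubeDisc : Set (Fin 2 → ℝ) :=
  {v | |v 0| ^ 3 + |v 1| ^ 3 ≤ 1}

theorem volume_cubeDisc :
    volume cubeDisc = .ofReal ((2 * Gamma (4 / 3)) ^ 2 / Gamma (5 / 3)) ∧
      volume {v : Fin 2 → ℝ | |v 0| ^ 3 + |v 1| ^ 3 < 1} =
        .ofReal ((2 * Gamma (4 / 3)) ^ 2 / Gamma (5 / 3)) := by
  have hsum : ∀ v : Fin 2 → ℝ, ∑ i, |v i| ^ (3 : ℝ) = |v 0| ^ 3 + |v 1| ^ 3 := fun v => by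
    rw [Fin.sum_univ_two, show (3 : ℝ) = ((3 : ℕ) : ℝ) by norm_num, Real.rpow_natCast,
      Real.rpow_natCast]
  have hc : (2 * Gamma (1 / (3 : ℝ) + 1)) ^ Fintype.card (Fin 2) /
      Gamma ((Fintype.card (Fin 2) : ℝ) / 3 + 1) = (2 * Gamma (4 / 3)) ^ 2 / Gamma (5 / 3) := by
    rw [Fintype.card_fin]
    norm_num
  refine ⟨?_, ?_⟩
  · have h := volume_sum_rpow_le (Fin 2) (p := 3) (by norm_num) 1
    rw [hc, ENNReal.ofReal_one, one_pow, one_mul] at h
    rw [← h]
    congr 1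
    ext v
    rw [cubeDisc, Set.mem_ofPred_eq, Set.mem_ofPred_eq, hsum]
    have key := Real.rpow_le_rpow_iff (x := |v 0| ^ 3 + |v 1| ^ 3) (z := 1 / (3 : ℝ))
      (by positivity) zero_le_one (by norm_num)
    rw [Real.one_rpow] at key
    exact key.symm
  · have h := volume_sum_rpow_lt_one (Fin 2) (p := 3) (by norm_num)
    rw [hc] at h
    rw [← h]
    simp only [hsum]

theorem cubeDisc_frontier_null : volume (frontier cubeDisc) = 0 := by
  obtain ⟨hle, hlt⟩ := volume_cubeDisc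
  have hcont : Continuous fun v : Fin 2 → ℝ => |v 0| ^ 3 + |v 1| ^ 3 := by fun_prop
  refine measure_mono_null (frontier_le_subset_eq hcont continuous_const) ?_
  have hsub : {v : Fin 2 → ℝ | |v 0| ^ 3 + |v 1| ^ 3 < 1} ⊆ cubeDisc :=
    fun v (hv : |v 0| ^ 3 + |v 1| ^ 3 < 1) => hv.le
  have h0 : volume (cubeDisc \ {v : Fin 2 → ℝ | |v 0| ^ 3 + |v 1| ^ 3 < 1}) = 0 := by
    rw [measure_sdiff hsub (measurableSet_lt hcont.measurable measurable_const).nullMeasurableSet
      (by rw [hlt]; exact ENNReal.ofReal_ne_top), hle, hlt, tsub_self]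
  refine measure_mono_null (fun v (hv : |v 0| ^ 3 + |v 1| ^ 3 = 1) => ?_) h0
  exact ⟨hv.le, fun (h : |v 0| ^ 3 + |v 1| ^ 3 < 1) => h.ne hv⟩

theorem tendsto_symmetric :
    Tendsto (fun N : ℕ => ((symmetricPoints N).card : ℝ) / (N : ℝ) ^ (2 / 3 : ℝ)) atTop
      (𝓝 ((2 * Gamma (4 / 3)) ^ 2 / Gamma (5 / 3))) := by
  have hb : Bornology.IsBounded cubeDisc := by
    refine (Metric.isBounded_closedBall (x := (0 : Fin 2 → ℝ)) (r := 1)).subset fun v hv => ?_
    rw [mem_closedBall_zero_iff, pi_norm_le_iff_of_nonneg zero_le_one, Fin.forall_fin_two]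
    have h0 := pow_nonneg (abs_nonneg (v 0)) 3
    have h1 := pow_nonneg (abs_nonneg (v 1)) 3
    have hv' : |v 0| ^ 3 + |v 1| ^ 3 ≤ 1 := hv
    exact ⟨(pow_le_one_iff_of_nonneg (norm_nonneg _) three_ne_zero).1 (by
      rw [Real.norm_eq_abs]; linarith), (pow_le_one_iff_of_nonneg (norm_nonneg _) three_ne_zero).1
      (by rw [Real.norm_eq_abs]; linarith)⟩
  have hshrink : ∀ ⦃x y : ℝ⦄, 0 < x → x ≤ y → x • cubeDisc ⊆ y • cubeDisc := by
    rintro x y hx hxy _ ⟨v, hv, rfl⟩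
    have hy : 0 < y := hx.trans_le hxy
    refine ⟨(x / y) • v, ?_, ?_⟩
    · have hv' : |v 0| ^ 3 + |v 1| ^ 3 ≤ 1 := hv
      have hr : |x / y| ≤ 1 := by
        rw [abs_of_pos (div_pos hx hy)]; exact (div_le_one hy).2 hxy
      show |((x / y) • v) 0| ^ 3 + |((x / y) • v) 1| ^ 3 ≤ 1
      simp only [Pi.smul_apply, smul_eq_mul, abs_mul, mul_pow, ← mul_add]
      exact mul_le_one₀ (pow_le_one₀ (abs_nonneg _) hr) (by positivity) hv'
    · show y • (x / y) • v = x • v
      rw [smul_smul, mul_div_cancel₀ _ hy.ne']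
  have h := tendsto_card_div_pow_atTop_volume' cubeDisc hb
    (measurableSet_le (by fun_prop) measurable_const) cubeDisc_frontier_null hshrink
  rw [measureReal_def, volume_cubeDisc.1, ENNReal.toReal_ofReal (div_nonneg (sq_nonneg _)
    (Gamma_nonneg_of_nonneg (by norm_num)))] at h
  refine (h.comp ((tendsto_rpow_atTop (show (0 : ℝ) < 1 / 3 by norm_num)).comp
    tendsto_natCast_atTop_atTop)).congr' ?_
  filter_upwards [eventually_gt_atTop 0] with N hN
  have hN' : (0 : ℝ) < N := Nat.cast_pos.2 hN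
  simp only [Function.comp_apply]
  set T := (N : ℝ) ^ (1 / 3 : ℝ) with hT
  have hT0 : 0 < T := by positivity
  have hT3 : T ^ 3 = N := by
    rw [hT, ← Real.rpow_natCast _ 3, ← Real.rpow_mul hN'.le,
      show (1 / 3 : ℝ) * ((3 : ℕ) : ℝ) = 1 by norm_num, Real.rpow_one]
  set φ : ℤ × ℤ → Fin 2 → ℝ := fun p => T⁻¹ • ![(p.1 : ℝ), (p.2 : ℝ)] with hφ
  have hinj : Function.Injective φ := fun p q h => by
    have h' := smul_right_injective (Fin 2 → ℝ) (inv_ne_zero hT0.ne') h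
    exact Prod.ext (by simpa using congrFun h' 0) (by simpa using congrFun h' 1)
  have hmem : ∀ p : ℤ × ℤ, φ p ∈ cubeDisc ↔ p ∈ symmetricPoints N := fun p => by
    have e : φ p ∈ cubeDisc ↔ p.1.natAbs ^ 3 + p.2.natAbs ^ 3 ≤ N := by
      show |(T⁻¹ • ![(p.1 : ℝ), (p.2 : ℝ)]) 0| ^ 3 + |(T⁻¹ • ![(p.1 : ℝ), (p.2 : ℝ)]) 1| ^ 3 ≤ 1 ↔ _
      simp only [Pi.smul_apply, smul_eq_mul, Matrix.cons_val_zero, Matrix.cons_val_one,
        Matrix.cons_val_fin_one, abs_mul, mul_pow, ← mul_add, abs_of_pos (inv_pos.2 hT0), inv_pow,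
        hT3]
      rw [inv_mul_le_iff₀ hN', mul_one, ← Nat.cast_le (α := ℝ)]
      push_cast
      rw [Nat.cast_natAbs, Nat.cast_natAbs]
      push_cast
      rfl
    rw [e, symmetricPoints, mem_filter, mem_product, mem_Icc, mem_Icc]
    refine ⟨fun h => ⟨?_, h⟩, fun h => h.2⟩
    have h1 := le_side (x := p.1.natAbs) (N := N) (by omega)
    have h2 := le_side (x := p.2.natAbs) (N := N) (by omega)
    omega
  have himg : (symmetricPoints N : Set (ℤ × ℤ)).ncard = Nat.card ↑(cubeDisc ∩ T⁻¹ •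
      (Submodule.span ℤ (Set.range (Pi.basisFun ℝ (Fin 2))) : Set (Fin 2 → ℝ))) := by
    rw [← Set.ncard_image_of_injective _ hinj, ← Nat.card_coe_set_eq]
    congr 2
    ext v
    constructor
    · rintro ⟨p, hp, rfl⟩
      refine ⟨(hmem p).2 hp, ![(p.1 : ℝ), (p.2 : ℝ)], ?_, rfl⟩
      rw [SetLike.mem_coe, Module.Basis.mem_span_iff_repr_mem ℤ]
      intro i
      fin_cases i <;> simp
    · rintro ⟨hv, w, hw, rfl⟩
      rw [SetLike.mem_coe, Module.Basis.mem_span_iff_repr_mem ℤ] at hw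
      obtain ⟨a, ha⟩ := hw 0
      obtain ⟨b, hb⟩ := hw 1
      have e : φ (a, b) = T⁻¹ • w := by
        rw [hφ]
        ext i
        fin_cases i <;> simp_all
      exact ⟨(a, b), (hmem _).1 (e ▸ hv), e⟩
  rw [← himg, Set.ncard_coe_finset, Fintype.card_fin, hT, ← Real.rpow_natCast _ 2,
    ← Real.rpow_mul hN'.le]
  norm_num

/-- A power below `2 / 3` is negligible. -/
theorem tendsto_rpow_div_zero {a C : ℝ} (ha : a < 2 / 3) :
    Tendsto (fun N : ℕ => C * (N : ℝ) ^ a / (N : ℝ) ^ (2 / 3 : ℝ)) atTop (𝓝 0) := by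
  have h := ((tendsto_rpow_neg_atTop (sub_pos.2 ha)).comp tendsto_natCast_atTop_atTop).const_mul C
  rw [mul_zero] at h
  refine h.congr' ?_
  filter_upwards [eventually_gt_atTop 0] with N hN
  simp only [Function.comp_apply]
  rw [neg_sub, Real.rpow_sub (Nat.cast_pos.2 hN), mul_div_assoc]

theorem repeated_bound {ε : ℝ} (hε : 0 < ε) :
    ∃ C : ℝ, 0 < C ∧ ∀ N : ℕ, 1 ≤ N → ((repeated N).card : ℝ) ≤ C * (N : ℝ) ^ (7 / 12 + ε) := by
  obtain ⟨C, hC, h⟩ := equalCubes_bound (mul_pos three_pos hε)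
  refine ⟨C, hC, fun N hN => ?_⟩
  have hs : 1 ≤ side N := le_side (by simpa using hN)
  refine (Nat.cast_le.2 (repeated_card N)).trans ((h _ hs).trans ?_)
  refine mul_le_mul_of_nonneg_left ((Real.rpow_le_rpow (Nat.cast_nonneg _) (side_le N)
    (by positivity)).trans_eq ?_) hC.le
  rw [← Real.rpow_mul (Nat.cast_nonneg N)]
  congr 1
  ring

/-- **The asymptotic number of sums of two cubes.** -/
theorem tendsto_values :
    Tendsto (fun N : ℕ => ((values N).card : ℝ) / (N : ℝ) ^ (2 / 3 : ℝ)) atTop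
      (𝓝 (Gamma (4 / 3) ^ 2 / (2 * Gamma (5 / 3)))) := by
  obtain ⟨C, hC, hrep⟩ := repeated_bound (ε := 1 / 24) (by norm_num)
  set V := (2 * Gamma (4 / 3)) ^ 2 / Gamma (5 / 3) with hV
  rw [show Gamma (4 / 3) ^ 2 / (2 * Gamma (5 / 3)) = V / 8 by rw [hV]; ring]
  have hlo : Tendsto (fun N : ℕ => ((symmetricPoints N).card : ℝ) / (N : ℝ) ^ (2 / 3 : ℝ) / 8 -
      C * (N : ℝ) ^ (7 / 12 + 1 / 24 : ℝ) / (N : ℝ) ^ (2 / 3 : ℝ) -
      6 * (N : ℝ) ^ (1 / 3 : ℝ) / (N : ℝ) ^ (2 / 3 : ℝ)) atTop (𝓝 (V / 8)) := by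
    simpa using ((tendsto_symmetric.div_const 8).sub (tendsto_rpow_div_zero (C := C)
      (a := 7 / 12 + 1 / 24) (by norm_num))).sub
      (tendsto_rpow_div_zero (C := 6) (a := 1 / 3) (by norm_num))
  have hhi : Tendsto (fun N : ℕ => ((symmetricPoints N).card : ℝ) / (N : ℝ) ^ (2 / 3 : ℝ) / 8 +
      6 * (N : ℝ) ^ (1 / 3 : ℝ) / (N : ℝ) ^ (2 / 3 : ℝ)) atTop (𝓝 (V / 8)) := by
    simpa using (tendsto_symmetric.div_const 8).add
      (tendsto_rpow_div_zero (C := 6) (a := 1 / 3) (by norm_num))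
  refine tendsto_of_tendsto_of_tendsto_of_le_of_le' hlo hhi ?_ ?_ <;>
    filter_upwards [eventually_ge_atTop 1] with N hN
  all_goals
    have h1 : (1 : ℝ) ≤ N := Nat.one_le_cast.2 hN
    obtain ⟨e1, e2, e3, e4⟩ := values_card_bounds N
    obtain ⟨e5, e6⟩ := symmetric_card N
    rw [← Nat.cast_le (α := ℝ)] at e1 e2 e3 e4 e5 e6
    push_cast at e1 e2 e3 e4 e5 e6
    have h2 : (1 : ℝ) ≤ (N : ℝ) ^ (1 / 3 : ℝ) := Real.one_le_rpow h1 (by norm_num)
    have h3 := side_le N
    have h4 := hrep N hN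
    have h5 : (0 : ℝ) < (N : ℝ) ^ (2 / 3 : ℝ) := by positivity
  · rw [div_right_comm, ← sub_div, ← sub_div, div_le_div_iff_of_pos_right h5]
    linarith
  · rw [div_right_comm, ← add_div, div_le_div_iff_of_pos_right h5]
    linarith

end FA.SumsTwoCubesCount

end
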